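import Fermat.Agent.StewartPrimes.Main

/-!
# Greatest prime factors of differences and sums of powers, Mersenne and Fermat numbers
-/

set_option autoImplicit false

noncomputable section

namespace FA.StewartPrimes

open Finset Filter Topology

variable {a b n t C : ℕ}

theorem pos_of_bound_le (hn : stewartIndexBound a t C ≤ n) : 0 < n :=
  lt_of_lt_of_le (Nat.two_pow_pos _) hn

theorem le_primeFactors_sup {N p C : ℕ} (hp : p.Prime) (hC : C < p) (hd : p ∣ N) (hN : N ≠ 0) :
    C < N.primeFactors.sup id :=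
  hC.trans_le (le_sup (f := id) (Nat.mem_primeFactors.2 ⟨hp, hd, hN⟩))

/-- **Stewart's theorem** for the differences of powers. -/
theorem difference_large_prime (hab : a.Coprime b) (hb : 0 < b) (hba : b < a)
    (ht : n.primeFactors.card ≤ t) (hn : stewartIndexBound a t C ≤ n) :
    ∃ p : ℕ, p.Prime ∧ C * n < p ∧ p ∣ a ^ n - b ^ n ∧
      orderOf ((a : ZMod p) * (b : ZMod p)⁻¹) = n := by
  obtain ⟨p, hp, hpn, ho⟩ := exists_large_prime_of_order hab hb hba ht hn
  have := Fact.mk hp
  exact ⟨p, hp, hpn, (dvd_sub_pow_iff hba.le (pos_of_bound_le hn) ho n).2 dvd_rfl, ho⟩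

/-- **Stewart's theorem** for the sums of powers. -/
theorem sum_large_prime (hab : a.Coprime b) (hb : 0 < b) (hba : b < a)
    (ht : n.primeFactors.card ≤ t) (hn : stewartIndexBound a (t + 1) C ≤ n) :
    ∃ p : ℕ, p.Prime ∧ C * n < p ∧ p ∣ a ^ n + b ^ n ∧
      orderOf ((a : ZMod p) * (b : ZMod p)⁻¹) = 2 * n := by
  have hn0 := pos_of_bound_le hn
  have h2t : (2 * n).primeFactors.card ≤ t + 1 := by
    rw [Nat.primeFactors_mul two_ne_zero hn0.ne', Nat.prime_two.primeFactors]
    exact (card_union_le _ _).trans (by rw [card_singleton]; omega)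
  obtain ⟨p, hp, hpn, hd, ho⟩ := difference_large_prime (n := 2 * n) hab hb hba h2t
    (hn.trans (Nat.le_mul_of_pos_left n two_pos))
  have := Fact.mk hp
  refine ⟨p, hp, lt_of_le_of_lt (Nat.mul_le_mul_left C (Nat.le_mul_of_pos_left n two_pos)) hpn,
    ?_, ho⟩
  rw [pow_mul' a, pow_mul' b, Nat.sq_sub_sq] at hd
  refine (hp.dvd_mul.1 hd).resolve_right fun h => ?_
  have := Nat.le_of_dvd hn0 ((dvd_sub_pow_iff hba.le (by omega) ho n).1 h)
  omega

/-- `P (a ^ n - b ^ n) / n` tends to infinity over the `n` with at most `t` primes. -/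
theorem difference_tendsto (hab : a.Coprime b) (hb : 0 < b) (hba : b < a) (t : ℕ) :
    Tendsto (fun n : ℕ => (((a ^ n - b ^ n).primeFactors.sup id : ℕ) : ℝ) / n)
      (atTop ⊓ 𝓟 {n | n.primeFactors.card ≤ t}) atTop := by
  refine tendsto_atTop.2 fun M => eventually_inf_principal.2 ?_
  filter_upwards [eventually_ge_atTop (stewartIndexBound a t ⌈M⌉₊)] with n hn ht
  obtain ⟨p, hp, hpn, hd, -⟩ := difference_large_prime hab hb hba ht hn
  have hn0 := pos_of_bound_le hn
  have hlt := le_primeFactors_sup hp hpn hd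
    (Nat.sub_pos_of_lt (Nat.pow_lt_pow_left hba hn0.ne')).ne'
  rw [le_div_iff₀ (by exact_mod_cast hn0)]
  exact (mul_le_mul_of_nonneg_right (Nat.le_ceil M) (Nat.cast_nonneg n)).trans
    (by exact_mod_cast hlt.le)

/-- `P (a ^ n + b ^ n) / n` tends to infinity over the `n` with at most `t` primes. -/
theorem sum_tendsto (hab : a.Coprime b) (hb : 0 < b) (hba : b < a) (t : ℕ) :
    Tendsto (fun n : ℕ => (((a ^ n + b ^ n).primeFactors.sup id : ℕ) : ℝ) / n)
      (atTop ⊓ 𝓟 {n | n.primeFactors.card ≤ t}) atTop := by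
  refine tendsto_atTop.2 fun M => eventually_inf_principal.2 ?_
  filter_upwards [eventually_ge_atTop (stewartIndexBound a (t + 1) ⌈M⌉₊)] with n hn ht
  obtain ⟨p, hp, hpn, hd, -⟩ := sum_large_prime hab hb hba ht hn
  have hn0 := pos_of_bound_le hn
  have hlt := le_primeFactors_sup hp hpn hd (by positivity)
  rw [le_div_iff₀ (by exact_mod_cast hn0)]
  exact (mul_le_mul_of_nonneg_right (Nat.le_ceil M) (Nat.cast_nonneg n)).trans
    (by exact_mod_cast hlt.le)

/-- **Mersenne numbers**: `P (2 ^ q - 1) / q` tends to infinity over the primes. -/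
theorem mersenne_tendsto :
    Tendsto (fun q : ℕ => (((2 ^ q - 1).primeFactors.sup id : ℕ) : ℝ) / q)
      (atTop ⊓ 𝓟 {q | q.Prime}) atTop := by
  have h := difference_tendsto (a := 2) (b := 1) (Nat.coprime_one_right 2) one_pos one_lt_two 1
  simp only [one_pow] at h
  refine h.mono_left (inf_le_inf_left _ (principal_mono.2 fun q hq => ?_))
  simp [Nat.Prime.primeFactors hq]

/-- **Fermat numbers**: `P (2 ^ (2 ^ k) + 1) / 2 ^ k` tends to infinity. -/
theorem fermat_number_tendsto :
    Tendsto (fun k : ℕ => (((2 ^ 2 ^ k + 1).primeFactors.sup id : ℕ) : ℝ) / 2 ^ k) atTop atTop := by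
  have h := sum_tendsto (a := 2) (b := 1) (Nat.coprime_one_right 2) one_pos one_lt_two 1
  simp only [one_pow] at h
  have hk : Tendsto (fun k : ℕ => 2 ^ k) atTop (atTop ⊓ 𝓟 {n : ℕ | n.primeFactors.card ≤ 1}) :=
    tendsto_inf.2 ⟨tendsto_pow_atTop_atTop_of_one_lt one_lt_two, tendsto_principal.2 <|
      Eventually.of_forall fun k => by
        rcases Nat.eq_zero_or_pos k with rfl | hk
        · simp
        · simp [Nat.primeFactors_prime_pow hk.ne' Nat.prime_two]⟩
  refine (h.comp hk).congr fun k => ?_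
  simp

end FA.StewartPrimes

end
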