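import Fermat.Agent.StewartPrimes.Values
import Fermat.Agent.Root.SummaryThueEffective

/-!
# Gaps in the active divisors and logarithmic forms in natural numbers
-/

set_option autoImplicit false

noncomputable section

namespace FA.StewartPrimes

open Finset

/-- The exponent in Baker's bound for `k` logarithms. -/
def logExponent (k : ℕ) : ℕ := 6 * k ^ 2 + 6 * k + 6

/-- The levels between which the divisors are sought. -/
def level (K L i : ℕ) : ℕ := 2 ^ (L / K ^ i)

variable {K L : ℕ}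

theorem level_succ_pow_le (K L i : ℕ) : level K L (i + 1) ^ K ≤ level K L i := by
  rw [level, level, ← pow_mul, pow_succ, ← Nat.div_div_eq_div_mul]
  exact Nat.pow_le_pow_right two_pos (Nat.div_mul_le_self _ _)

theorem level_antitone (hK : 0 < K) {i j : ℕ} (hij : i ≤ j) : level K L j ≤ level K L i :=
  Nat.pow_le_pow_right two_pos
    (Nat.div_le_div_left (Nat.pow_le_pow_right hK hij) (pow_pos hK i))

theorem div_lt_level (hK : 0 < K) {i T : ℕ} (hi : i ≤ T) : L / K ^ T < level K L i :=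
  Nat.lt_two_pow_self.trans_le (level_antitone hK hi)

theorem le_mul_level (hK : 0 < K) {i T : ℕ} (hi : i ≤ T) : L ≤ K ^ T * level K L i :=
  le_trans (Nat.lt_mul_div_succ L (pow_pos hK T)).le
    (Nat.mul_le_mul_left _ (Nat.succ_le_of_lt (div_lt_level hK hi)))

/-- Among `T` consecutive intervals one misses a set of at most `T` numbers, one of them at
least `2 ^ L`. -/
theorem exists_gap (hK : 0 < K) {S : Finset ℕ} {T n : ℕ} (hS : S.card ≤ T) (hn : n ∈ S)
    (hLn : 2 ^ L ≤ n) :
    ∃ i < T, ∀ d ∈ S, d ≤ level K L (i + 1) ∨ level K L i ≤ d := by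
  by_contra! h
  choose f hf hlo hhi using h
  have hinj : Function.Injective fun i : Fin T => f i i.2 := fun i j hij => by
    have key : ∀ i j : Fin T, f i i.2 = f j j.2 → ¬ (i : ℕ) < j := fun i j hij hlt =>
      (lt_irrefl (f i i.2)) <| hij ▸ (hhi j j.2).trans_le
        ((level_antitone hK (Nat.succ_le_of_lt hlt)).trans (hij ▸ (hlo i i.2).le))
    exact Fin.ext (le_antisymm (not_lt.1 (key j i hij.symm)) (not_lt.1 (key i j hij)))
  have h1 : (univ.image fun i : Fin T => f i i.2) ⊆ S.erase n := fun d hd => by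
    obtain ⟨i, -, rfl⟩ := mem_image.1 hd
    refine mem_erase.2 ⟨ne_of_lt ?_, hf i i.2⟩
    refine (hhi i i.2).trans_le ((level_antitone hK (Nat.zero_le _)).trans ?_)
    rwa [level, pow_zero, Nat.div_one]
  have h2 := card_le_card h1
  rw [card_image_of_injective _ hinj, card_univ, Fintype.card_fin, card_erase_of_mem hn] at h2
  have := card_pos.2 ⟨n, hn⟩
  omega

theorem log_natCast_le {x h : ℕ} (hx : x ≤ 2 ^ h) : Real.log (x : ℝ) ≤ h := by
  rcases Nat.eq_zero_or_pos x with rfl | h0
  · simp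
  · refine (Real.log_le_log (by exact_mod_cast h0) (Nat.cast_le.2 hx)).trans ?_
    rw [Nat.cast_pow, Real.log_pow]
    exact mul_le_of_le_one_right (Nat.cast_nonneg h)
      (Real.log_two_lt_d9.le.trans (by norm_num))

/-- **Baker's bound for natural numbers and one positive rational number.** -/
theorem logForm_ge {k h m : ℕ} {g : Fin k → ℕ} (hg : ∀ i, 1 ≤ g i) (hgh : ∀ i, g i ≤ 2 ^ h)
    {P Q : ℕ} (hP : 1 ≤ P) (hQ : 1 ≤ Q) (hPh : P ≤ 2 ^ h) (hQh : Q ≤ 2 ^ h) {e : Fin k → ℤ}
    (he : ∀ i, (e i).natAbs ≤ 2 ^ m)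
    (hne : ∑ i, (e i : ℝ) * Real.log (g i) + (Real.log P - Real.log Q) ≠ 0) :
    1 / (2 : ℝ) ^ ((2 ^ (4 * (k + 1) ^ 2 + 18) * (h + m)) ^ logExponent (k + 1)) ≤
      |∑ i, (e i : ℝ) * Real.log (g i) + (Real.log P - Real.log Q)| := by
  set α : Fin (k + 1) → ℚ := Fin.snoc (fun i => (g i : ℚ)) ((P : ℚ) / Q)
  set l : Fin (k + 1) → ℂ := Fin.snoc (fun i => ((Real.log (g i) : ℝ) : ℂ))
    ((Real.log P - Real.log Q : ℝ) : ℂ)
  set b : Fin (k + 1) → ℤ := Fin.snoc e 1
  have hQ0 : (Q : ℚ) ≠ 0 := Nat.cast_ne_zero.2 (by omega)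
  have hPR : (0 : ℝ) < P := by exact_mod_cast hP
  have hQR : (0 : ℝ) < Q := by exact_mod_cast hQ
  have hsum : ∑ i, (b i : ℂ) * l i =
      ((∑ i, (e i : ℝ) * Real.log (g i) + (Real.log P - Real.log Q) : ℝ) : ℂ) := by
    simp [b, l, Fin.sum_univ_castSucc]
  have hint : ∀ i, IsIntegral ℤ ((Q : ℚ) * α i) := by
    refine Fin.lastCases ?_ fun i => ?_
    · rw [show (Q : ℚ) * α (Fin.last k) = algebraMap ℤ ℚ P by simp [α, mul_div_cancel₀ _ hQ0]]
      exact isIntegral_algebraMap
    · rw [show (Q : ℚ) * α i.castSucc = algebraMap ℤ ℚ (Q * g i) by simp [α]]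
      exact isIntegral_algebraMap
  have hsize : ∀ i (σ : ℚ →+* ℂ), ‖σ (α i)‖ ≤ (2 : ℝ) ^ h := by
    refine Fin.lastCases (fun σ => ?_) fun i σ => ?_
    · simp only [α, Fin.snoc_last, eq_ratCast, Rat.cast_div, Rat.cast_natCast, norm_div,
        Complex.norm_natCast]
      exact (div_le_self hPR.le (by exact_mod_cast hQ)).trans (by exact_mod_cast hPh)
    · simp only [α, Fin.snoc_castSucc, eq_ratCast, Rat.cast_natCast, Complex.norm_natCast]
      exact_mod_cast hgh i
  have hexp : ∀ i, Complex.exp (l i) = Rat.castHom ℂ (α i) := by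
    refine Fin.lastCases ?_ fun i => ?_
    · simp only [α, l, Fin.snoc_last, eq_ratCast, Rat.cast_div, Rat.cast_natCast,
        ← Complex.ofReal_exp, Real.exp_sub, Real.exp_log hPR, Real.exp_log hQR,
        Complex.ofReal_div, Complex.ofReal_natCast]
    · simp only [α, l, Fin.snoc_castSucc, eq_ratCast, Rat.cast_natCast, ← Complex.ofReal_exp,
        Real.exp_log (show (0 : ℝ) < g i by exact_mod_cast hg i), Complex.ofReal_natCast]
  have hl : ∀ i, ‖l i‖ ≤ h := by
    refine Fin.lastCases ?_ fun i => ?_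
    · simp only [l, Fin.snoc_last, Complex.norm_real, Real.norm_eq_abs, abs_le]
      have := log_natCast_le hPh
      have := log_natCast_le hQh
      have := Real.log_natCast_nonneg P
      have := Real.log_natCast_nonneg Q
      constructor <;> linarith
    · simp only [l, Fin.snoc_castSucc, Complex.norm_real, Real.norm_eq_abs,
        abs_of_nonneg (Real.log_natCast_nonneg _)]
      exact log_natCast_le (hgh i)
  have hb : ∀ i, (b i).natAbs ≤ 2 ^ m := by
    refine Fin.lastCases ?_ fun i => ?_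
    · simp [b, Nat.one_le_two_pow]
    · simpa [b] using he i
  have hB := FA.BakerExplicit.EffectiveThue.baker_algebraic_general (K := ℚ) (d := 1)
    (Module.finrank_self ℚ).le (Rat.castHom ℂ) (by omega) hint hQh hsize hexp hl hb
    (by rw [hsum]; exact_mod_cast hne)
  rw [hsum, Complex.norm_real, Real.norm_eq_abs, mul_one] at hB
  exact hB

end FA.StewartPrimes

end
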