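import Fermat.Agent.StewartPrimes.Values
import Fermat.Agent.Root.SummaryZsigmondy

/-!
# The rational number of the small divisors and the non-vanishing of the tail
-/

set_option autoImplicit false

noncomputable section

namespace FA.StewartPrimes

open Finset
open scoped ArithmeticFunction.Moebius

/-- The numerator of the product of `((a ^ d - b ^ d) / a ^ d) ^ μ (n / d)` over `S`. -/
def upper (a b n : ℕ) (S : Finset ℕ) : ℕ := ∏ d ∈ S, if μ (n / d) = 1 then a ^ d - b ^ d else a ^ d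

/-- Its denominator. -/
def lower (a b n : ℕ) (S : Finset ℕ) : ℕ := ∏ d ∈ S, if μ (n / d) = 1 then a ^ d else a ^ d - b ^ d

variable {a b n : ℕ} {S : Finset ℕ}

theorem upper_pos (hba : b < a) (hS : ∀ d ∈ S, 0 < d) :
    0 < upper a b n S ∧ 0 < lower a b n S := by
  have ha : ∀ d, 0 < a ^ d := fun d => pow_pos (by omega) d
  have hsub : ∀ d ∈ S, 0 < a ^ d - b ^ d := fun d hd =>
    Nat.sub_pos_of_lt (Nat.pow_lt_pow_left hba (hS d hd).ne')
  constructor <;> refine prod_pos fun d hd => ?_ <;> split <;> simp [ha, hsub d hd]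

theorem upper_le {T U : ℕ} (hba : b < a) (hT : S.card ≤ T) (hU : ∀ d ∈ S, d ≤ U) :
    upper a b n S ≤ 2 ^ (a * U * T) ∧ lower a b n S ≤ 2 ^ (a * U * T) := by
  have key : ∀ f : ℕ → ℕ, (∀ d ∈ S, f d ≤ a ^ d) → ∏ d ∈ S, f d ≤ 2 ^ (a * U * T) := fun f hf => by
    refine (prod_le_pow_card S f (2 ^ (a * U)) fun d hd => (hf d hd).trans ?_).trans ?_
    · rw [pow_mul]
      exact (Nat.pow_le_pow_right (by omega) (hU d hd)).trans
        (Nat.pow_le_pow_left Nat.lt_two_pow_self.le U)
    · rw [← pow_mul]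
      exact Nat.pow_le_pow_right two_pos (Nat.mul_le_mul_left _ hT)
  constructor <;> refine key _ fun d _ => ?_ <;> split <;> simp

theorem log_upper_sub_lower (hba : b < a) (hS : S ⊆ activeDivisors n) :
    Real.log (upper a b n S) - Real.log (lower a b n S) =
      ∑ d ∈ S, (μ (n / d) : ℝ) * ell a b d := by
  have hd0 : ∀ d ∈ S, 0 < d := fun d hd => Nat.pos_of_mem_divisors (mem_filter.1 (hS hd)).1
  have hpos : ∀ d ∈ S, (0 : ℝ) < ((a ^ d - b ^ d : ℕ) : ℝ) := fun d hd =>
    Nat.cast_pos.2 (Nat.sub_pos_of_lt (Nat.pow_lt_pow_left hba (hd0 d hd).ne'))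
  have hapos : ∀ d : ℕ, (0 : ℝ) < ((a ^ d : ℕ) : ℝ) := fun d =>
    Nat.cast_pos.2 (pow_pos (by omega) d)
  rw [upper, lower, Nat.cast_prod, Nat.cast_prod, Real.log_prod, Real.log_prod, ← sum_sub_distrib]
  · refine sum_congr rfl fun d hd => ?_
    have hlog : Real.log ((a ^ d - b ^ d : ℕ) : ℝ) =
        Real.log ((a ^ d : ℕ) : ℝ) + ell a b d := by
      rw [Nat.cast_sub (Nat.pow_le_pow_left hba.le d), Nat.cast_pow, Nat.cast_pow, Real.log_pow,
        log_sub_pow_eq hba (hd0 d hd)]
    rcases ArithmeticFunction.moebius_eq_or (n / d) with h | h | h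
    · exact absurd h (ArithmeticFunction.moebius_ne_zero_iff_squarefree.2 (mem_filter.1 (hS hd)).2)
    · rw [if_pos h, if_pos h, hlog, h]
      push_cast
      ring
    · rw [if_neg (by omega), if_neg (by omega), hlog, h]
      push_cast
      ring
  all_goals intro d hd
  all_goals split <;> first | exact (hpos d hd).ne' | exact (hapos d).ne'

/-- **The tail does not vanish**: a prime of order `n` divides one side only. -/
theorem tail_ne_zero (hab : a.Coprime b) (hb : 0 < b) (hba : b < a) (hn : 7 ≤ n)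
    (hS : S ⊆ activeDivisors n) (hnS : n ∈ S) :
    ∑ d ∈ S, (μ (n / d) : ℝ) * ell a b d ≠ 0 := fun h0 => by
  obtain ⟨p, hp, ho⟩ := FA.Summary.exists_prime_orderOf_div_eq (n := n) hab hb hba
    (by omega) (by omega)
  have := Fact.mk hp
  have hd0 : ∀ d ∈ S, 0 < d := fun d hd => Nat.pos_of_mem_divisors (mem_filter.1 (hS hd)).1
  obtain ⟨h1, h2⟩ := upper_pos (n := n) hba hd0
  rw [← log_upper_sub_lower hba hS, sub_eq_zero] at h0
  have heq : upper a b n S = lower a b n S :=
    Nat.cast_inj.1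
    (Real.log_injOn_pos (Set.mem_Ioi.2 (Nat.cast_pos.2 h1)) (Set.mem_Ioi.2 (Nat.cast_pos.2 h2)) h0)
  have hup : p ∣ upper a b n S := by
    refine dvd_trans ?_ (dvd_prod_of_mem _ hnS)
    rw [if_pos (by rw [Nat.div_self (by omega), ArithmeticFunction.moebius_apply_one])]
    exact (dvd_sub_pow_iff hba.le (by omega) ho n).2 dvd_rfl
  rw [heq, lower, Prime.dvd_finsetProd_iff hp.prime] at hup
  obtain ⟨d, hd, hdvd⟩ := hup
  split at hdvd
  · exact not_dvd_left (by omega) ho (hp.dvd_of_dvd_pow hdvd)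
  · rename_i hμ
    have h3 := Nat.le_of_dvd (hd0 d hd) ((dvd_sub_pow_iff hba.le (by omega) ho d).1 hdvd)
    have h4 := Nat.divisor_le (mem_filter.1 (hS hd)).1
    rw [show d = n by omega, Nat.div_self (by omega), ArithmeticFunction.moebius_apply_one] at hμ
    exact hμ rfl

end FA.StewartPrimes

end
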