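import Fermat.Agent.StewartPrimes.Gap
import Fermat.Agent.StewartPrimes.Products

/-!
# The greatest prime factor of `a ^ n - b ^ n` for `n` with few primes

If every prime with `a / b` of order `n` is at most `C n` then the logarithm of the cyclotomic value
is a form in `C + 2` logarithms and the logarithm of one small rational number, which comes too
close to zero.
-/

set_option autoImplicit false

noncomputable section

namespace FA.StewartPrimes

open Finset ReducedGroups
open scoped ArithmeticFunction.Moebius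

/-- The power relating two consecutive levels. -/
def stewartScale (C t : ℕ) : ℕ := (logExponent (C + 3) + 1) ^ 2 ^ t

/-- The factor of a level bounding the sizes of the data. -/
def stewartWidth (a t C : ℕ) : ℕ := a * 2 ^ t + C + 2 * stewartScale C t + 4 + 2 ^ t + a

/-- The least admissible level. -/
def stewartFloor (a t C : ℕ) : ℕ :=
  a * ((2 ^ (4 * (C + 3) ^ 2 + 18) * stewartWidth a t C) ^ logExponent (C + 3) + 2 ^ t + a + 1) + 7

/-- From this index on there is a prime with `a / b` of order `n` greater than `C n`. -/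
def stewartIndexBound (a t C : ℕ) : ℕ := 2 ^ (stewartScale C t * stewartFloor a t C)

variable {a b n t C : ℕ}

theorem abs_tail_le {S : Finset ℕ} {T V : ℕ} (hba : b < a) (hT : S.card ≤ T)
    (hS : ∀ d ∈ S, 0 < d ∧ V ≤ d) :
    |∑ d ∈ S, (μ (n / d) : ℝ) * ell a b d| ≤ T * a * ((b : ℝ) / a) ^ V := by
  have ha : (0 : ℝ) < a := by exact_mod_cast Nat.zero_lt_of_lt hba
  have hr : (b : ℝ) / a ≤ 1 := div_le_one_of_le₀ (by exact_mod_cast hba.le) ha.le
  calc |∑ d ∈ S, (μ (n / d) : ℝ) * ell a b d|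
      ≤ ∑ d ∈ S, |(μ (n / d) : ℝ) * ell a b d| := abs_sum_le_sum_abs _ _
    _ ≤ ∑ _d ∈ S, (a : ℝ) * ((b : ℝ) / a) ^ V := sum_le_sum fun d hd => by
        rw [abs_mul]
        refine (mul_le_of_le_one_left (abs_nonneg _) ?_).trans ((abs_ell_le hba (hS d hd).1).1.trans
          (mul_le_mul_of_nonneg_left (pow_le_pow_of_le_one (by positivity) hr (hS d hd).2) ha.le))
        exact_mod_cast ArithmeticFunction.abs_moebius_le_one
    _ ≤ T * (a * ((b : ℝ) / a) ^ V) := by
        rw [sum_const, nsmul_eq_mul]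
        gcongr
    _ = _ := by ring

theorem ratio_pow_lt {T E V : ℕ} (hba : b < a) (hV : a * (E + T + a + 1) ≤ V) :
    (T : ℝ) * a * ((b : ℝ) / a) ^ V < 1 / 2 ^ E := by
  have ha : (0 : ℝ) < a := by exact_mod_cast Nat.zero_lt_of_lt hba
  have h0 : (b : ℝ) / a ≤ Real.exp (-(1 / a)) := by
    refine le_trans ?_ (Real.add_one_le_exp _)
    rw [← sub_eq_neg_add, one_sub_div ha.ne', div_le_div_iff_of_pos_right ha, le_sub_iff_add_le]
    exact_mod_cast hba
  have h1 : ((b : ℝ) / a) ^ V ≤ (1 / 2) ^ (E + T + a + 1) := by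
    refine (pow_le_pow_left₀ (by positivity) h0 V).trans ?_
    rw [← Real.exp_nat_mul]
    refine le_trans ?_ (pow_le_pow_left₀ (Real.exp_pos (-1)).le ?_ (E + T + a + 1))
    · rw [← Real.exp_nat_mul]
      refine Real.exp_le_exp.2 ?_
      have h : ((a : ℝ) * (E + T + a + 1 : ℕ)) ≤ V := by exact_mod_cast hV
      have h' : ((E + T + a + 1 : ℕ) : ℝ) ≤ V / a := by rw [le_div_iff₀ ha]; linarith
      rw [mul_neg, mul_neg, mul_one, mul_one_div]
      linarith
    · rw [Real.exp_neg, ← one_div]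
      exact one_div_le_one_div_of_le two_pos (by linarith [Real.add_one_le_exp (1 : ℝ)])
  have hT : ((T * a : ℕ) : ℝ) ≤ 2 ^ (T + a) := by
    rw [pow_add]
    exact_mod_cast Nat.mul_le_mul Nat.lt_two_pow_self.le Nat.lt_two_pow_self.le
  refine lt_of_le_of_lt (mul_le_mul_of_nonneg_left h1 (by positivity)) ?_
  rw [one_div_pow, mul_one_div, div_lt_div_iff₀ (by positivity) (by positivity), one_mul,
    show E + T + a + 1 = (T + a) + (E + 1) by ring, pow_add, pow_succ]
  push_cast at hT
  nlinarith [show (0 : ℝ) < 2 ^ (T + a) * 2 ^ E by positivity,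
    mul_le_mul_of_nonneg_right hT (show (0 : ℝ) ≤ 2 ^ E by positivity)]

/-- The candidates for the primes of the cyclotomic value. -/
def candidates (C n q : ℕ) : Fin (C + 1) → ℕ := Fin.snoc (fun i : Fin C => ((i : ℕ) + 1) * n + 1) q

theorem candidates_bounds {q : ℕ} (hn : 0 < n) (hq : 2 ≤ q) (hqn : q ≤ n) (i : Fin (C + 1)) :
    2 ≤ candidates C n q i ∧ candidates C n q i ≤ (C + 1) * n + 1 := by
  refine Fin.lastCases ?_ (fun j => ?_) i
  · simp only [candidates, Fin.snoc_last]
    exact ⟨hq, hqn.trans (le_add_of_le_left (Nat.le_mul_of_pos_left n (Nat.succ_pos _)))⟩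
  · simp only [candidates, Fin.snoc_castSucc]
    refine ⟨Nat.succ_le_succ (Nat.mul_pos (Nat.succ_pos _) hn), ?_⟩
    gcongr
    exact j.isLt.le

theorem candidates_injective {q : ℕ} (hn : 0 < n) (hqn : q ≤ n) :
    Function.Injective (candidates C n q) := by
  refine (Fin.snoc_injective_iff).2 ⟨fun i j hij => ?_, ?_⟩
  · exact Fin.ext (by simpa [hn.ne'] using hij)
  · rintro ⟨i, hi⟩
    have := Nat.le_mul_of_pos_left n (Nat.succ_pos (i : ℕ))
    simp only [Nat.succ_eq_add_one] at this hi
    omega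

theorem primeFactors_subset_candidates (hab : a.Coprime b) (hn : 1 < n)
    (hsmall : ∀ p : ℕ, p.Prime → orderOf ((a : ZMod p) * (b : ZMod p)⁻¹) = n → p ≤ C * n) :
    ∃ q : ℕ, 2 ≤ q ∧ q ≤ n ∧
      (homCyclotomic a b n).natAbs.primeFactors ⊆ univ.image (candidates C n q) := by
  have hne : n.primeFactors.Nonempty := Nat.nonempty_primeFactors.2 hn
  have hmem := n.primeFactors.max'_mem hne
  refine ⟨_, (Nat.prime_of_mem_primeFactors hmem).two_le, Nat.le_of_mem_primeFactors hmem,
    fun p hp => ?_⟩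
  rcases primeFactors_cases hab hn hsmall hp with ⟨j, hj, rfl⟩ | ⟨hpn, hmax⟩
  · exact mem_image.2 ⟨Fin.castSucc ⟨j, hj⟩, mem_univ _,
      Fin.snoc_castSucc (α := fun _ => ℕ) _ _ ⟨j, hj⟩⟩
  · refine mem_image.2 ⟨Fin.last C, mem_univ _, ?_⟩
    simp only [candidates, Fin.snoc_last]
    exact le_antisymm (hmax _ (Nat.prime_of_mem_primeFactors hmem)
      (Nat.dvd_of_mem_primeFactors hmem)) (le_max' _ _
        (Nat.mem_primeFactors.2 ⟨Nat.prime_of_mem_primeFactors hp, hpn, by omega⟩))

theorem log_eq_sum_candidates {N k : ℕ} {g : Fin k → ℕ} (hg : Function.Injective g)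
    (hsub : N.primeFactors ⊆ univ.image g) :
    Real.log N = ∑ i, (N.factorization (g i) : ℝ) * Real.log (g i) := by
  rw [Real.log_nat_eq_sum_factorization, ← sum_image (f := fun p : ℕ =>
      (N.factorization p : ℝ) * Real.log p) hg.injOn]
  refine (Finsupp.sum_of_support_subset _ (by rwa [Nat.support_factorization]) _ fun p _ => ?_)
  simp

theorem add_mul_le_two_pow {T L : ℕ} (hn : n < 2 ^ (L + 1)) :
    (n + T) * a ≤ 2 ^ (L + 1 + T + a) := by
  rw [pow_add, pow_add _ (L + 1)]
  refine Nat.mul_le_mul ?_ Nat.lt_two_pow_self.le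
  obtain ⟨u, hu⟩ := Nat.exists_eq_add_of_lt hn
  obtain ⟨v, hv⟩ := Nat.exists_eq_add_of_lt (Nat.lt_two_pow_self (n := T))
  rw [hu, hv]
  nlinarith

theorem width_le {U T L S : ℕ} (hU : 1 ≤ U) (hL : L ≤ S * U) :
    a * U * T + C + L + 3 + (L + 1 + T + a) ≤ (a * T + C + 2 * S + 4 + T + a) * U := by
  nlinarith [Nat.mul_le_mul_left (C + 4 + T + a) hU]

theorem floor_le {E T W U : ℕ} (hU : 1 ≤ U) (hE : E ≤ W * U) :
    a * (E + T + a + 1) ≤ (a * (W + T + a + 1) + 7) * U := by
  nlinarith [Nat.mul_le_mul_left (a * (T + a + 1)) hU, Nat.mul_le_mul_left a hE]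

/-- The exponents in the cyclotomic value are at most `(n + T) a`. -/
theorem exponent_le {k T : ℕ} (hba : b < a) (hn : 0 < n) (hT : (activeDivisors n).card ≤ T)
    {g : Fin k → ℕ} (hg : ∀ i, 2 ≤ g i) {f : Fin k → ℕ}
    (hlog : ∑ i, (f i : ℝ) * Real.log (g i) =
      n.totient * Real.log a + ∑ d ∈ activeDivisors n, (μ (n / d) : ℝ) * ell a b d) (j : Fin k) :
    f j ≤ (n + T) * a := by
  have hμ : ∀ d, |(μ (n / d) : ℝ)| ≤ 1 := fun d => by
    exact_mod_cast ArithmeticFunction.abs_moebius_le_one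
  have h1 : (f j : ℝ) * Real.log 2 ≤ ∑ i, (f i : ℝ) * Real.log (g i) :=
    (mul_le_mul_of_nonneg_left (Real.log_le_log two_pos (by exact_mod_cast hg j))
      (Nat.cast_nonneg _)).trans (single_le_sum (f := fun i => (f i : ℝ) * Real.log (g i))
        (fun i _ => mul_nonneg (Nat.cast_nonneg _) (Real.log_natCast_nonneg _)) (mem_univ j))
  have h2 : ∑ d ∈ activeDivisors n, (μ (n / d) : ℝ) * ell a b d ≤ (T : ℝ) * Real.log a := by
    refine (sum_le_sum (g := fun _ => Real.log a) fun d hd => ?_).trans ?_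
    · refine (le_abs_self _).trans ?_
      rw [abs_mul]
      exact (mul_le_of_le_one_left (abs_nonneg _) (hμ d)).trans
        (abs_ell_le hba (Nat.pos_of_mem_divisors (mem_filter.1 hd).1)).2
    · rw [sum_const, nsmul_eq_mul]
      exact mul_le_mul_of_nonneg_right (Nat.cast_le.2 hT) (Real.log_natCast_nonneg _)
  have h3 : Real.log a ≤ (a : ℝ) * Real.log 2 := by
    rw [← Real.log_pow]
    exact Real.log_le_log (by exact_mod_cast (show 0 < a by omega))
      (by exact_mod_cast Nat.lt_two_pow_self.le)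
  have h4 : (n.totient : ℝ) * Real.log a ≤ (n : ℝ) * Real.log a :=
    mul_le_mul_of_nonneg_right (Nat.cast_le.2 (Nat.totient_le n)) (Real.log_natCast_nonneg _)
  have h5 : (f j : ℝ) * Real.log 2 ≤ ((n + T) * a : ℕ) * Real.log 2 := by
    push_cast
    nlinarith [mul_le_mul_of_nonneg_left h3 (show (0 : ℝ) ≤ n + T by positivity)]
  exact_mod_cast le_of_mul_le_mul_right h5 (Real.log_pos one_lt_two)

/-- **The main estimate.** -/
theorem exists_large_prime_of_order (hab : a.Coprime b) (hb : 0 < b) (hba : b < a)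
    (ht : n.primeFactors.card ≤ t) (hn : stewartIndexBound a t C ≤ n) :
    ∃ p : ℕ, p.Prime ∧ C * n < p ∧ orderOf ((a : ZMod p) * (b : ZMod p)⁻¹) = n := by
  by_contra! hno
  have hsmall : ∀ p : ℕ, p.Prime → orderOf ((a : ZMod p) * (b : ZMod p)⁻¹) = n → p ≤ C * n :=
    fun p hp ho => not_lt.1 fun hlt => hno p hp hlt ho
  set κ := logExponent (C + 3) with hκ
  set K := κ + 1 with hK
  set L := Nat.log 2 n with hLdef
  set T := 2 ^ t with hTdef
  set M := stewartFloor a t C with hM
  have hscale : stewartScale C t = K ^ T := rfl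
  have hLn0 : K ^ T * M ≤ L := Nat.le_log_of_pow_le one_lt_two hn
  have hM7 : 7 ≤ M := Nat.le_add_left 7 _
  have hn7 : 7 ≤ n := by
    refine (hM7.trans ?_).trans hn
    exact (Nat.le_mul_of_pos_left M (hscale ▸ pow_pos (Nat.succ_pos κ) T)).trans
      Nat.lt_two_pow_self.le
  have hn0 : n ≠ 0 := by omega
  have hLn : 2 ^ L ≤ n := Nat.pow_log_le_self 2 hn0
  have hnL : n < 2 ^ (L + 1) := Nat.lt_pow_succ_log_self one_lt_two n
  have hcard := card_activeDivisors_le hn0 ht
  have hnA : n ∈ activeDivisors n := mem_filter.2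
    ⟨Nat.mem_divisors_self n hn0, by simp [Nat.div_self (Nat.pos_of_ne_zero hn0)]⟩
  obtain ⟨i, hiT, hgap⟩ := exists_gap (L := L) (K := K) (Nat.succ_pos κ) hcard hnA hLn
  set U := level K L (i + 1)
  set V := level K L i
  have hUV : U ^ K ≤ V := level_succ_pow_le K L i
  have hMU : M < U := lt_of_le_of_lt
    ((Nat.le_div_iff_mul_le (pow_pos (Nat.succ_pos κ) T)).2 (by rwa [mul_comm]))
    (div_lt_level (Nat.succ_pos κ) hiT)
  have hLU : L ≤ K ^ T * U := le_mul_level (Nat.succ_pos κ) hiT
  set small := (activeDivisors n).filter (· ≤ U)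
  set large := (activeDivisors n).filter (¬ · ≤ U)
  have hlarge : ∀ d ∈ large, 0 < d ∧ V ≤ d := fun d hd => by
    obtain ⟨h1, h2⟩ := mem_filter.1 hd
    exact ⟨Nat.pos_of_mem_divisors (mem_filter.1 h1).1, (hgap d h1).resolve_left h2⟩
  have hVn : V ≤ n := (level_antitone (Nat.succ_pos κ) (Nat.zero_le i)).trans
    (by rwa [level, pow_zero, Nat.div_one])
  have hnlarge : n ∈ large := mem_filter.2 ⟨hnA, not_le.2 <| calc
    U < U ^ K := lt_self_pow₀ (by omega) (by rw [hK, hκ, logExponent]; omega)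
    _ ≤ V := hUV
    _ ≤ n := hVn⟩
  -- the linear form
  obtain ⟨q, hq2, hqn, hsub⟩ := primeFactors_subset_candidates hab (by omega) hsmall
  set g := candidates C n q
  set N := (homCyclotomic a b n).natAbs
  have hlogN : ∑ i, (N.factorization (g i) : ℝ) * Real.log (g i) =
      n.totient * Real.log a + ∑ d ∈ activeDivisors n, (μ (n / d) : ℝ) * ell a b d := by
    rw [← log_eq_sum_candidates (candidates_injective (by omega) hqn) hsub]
    exact log_natAbs_homCyclotomic hb hba (by omega)
  set e : Fin (C + 2) → ℤ := Fin.snoc (fun i => (N.factorization (g i) : ℤ)) (-(n.totient : ℤ))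
  set g' : Fin (C + 2) → ℕ := Fin.snoc g a
  have hform : ∑ i, (e i : ℝ) * Real.log (g' i) +
      (Real.log (lower a b n small) - Real.log (upper a b n small)) =
        ∑ d ∈ large, (μ (n / d) : ℝ) * ell a b d := by
    rw [← neg_sub (Real.log (upper a b n small)), log_upper_sub_lower hba (filter_subset _ _)]
    rw [Fin.sum_univ_castSucc (n := C + 1)]
    simp only [e, g', Fin.snoc_castSucc, Fin.snoc_last, Int.cast_natCast, Int.cast_neg]
    rw [hlogN, ← sum_filter_add_sum_filter_not (activeDivisors n) (· ≤ U)]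
    ring
  set h := a * U * T + C + L + 3 with hh
  set m := L + 1 + T + a with hm
  have hg' : ∀ i, 1 ≤ g' i ∧ g' i ≤ 2 ^ h := by
    refine Fin.lastCases ?_ fun j => ?_
    · simp only [g', Fin.snoc_last]
      refine ⟨by omega, Nat.lt_two_pow_self.le.trans (Nat.pow_le_pow_right two_pos ?_)⟩
      have : a * 1 * 1 ≤ a * U * T := Nat.mul_le_mul (Nat.mul_le_mul_left _ (by omega))
        (Nat.one_le_two_pow)
      omega
    · simp only [g', Fin.snoc_castSucc]
      obtain ⟨h1, h2⟩ := candidates_bounds (C := C) (by omega) hq2 hqn j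
      refine ⟨one_le_two.trans h1, h2.trans ?_⟩
      calc (C + 1) * n + 1 ≤ (C + 2) * n := by rw [add_mul, add_mul]; omega
        _ ≤ 2 ^ (C + 2) * 2 ^ (L + 1) := Nat.mul_le_mul Nat.lt_two_pow_self.le hnL.le
        _ ≤ 2 ^ h := by
          rw [← pow_add]
          exact Nat.pow_le_pow_right two_pos (by omega)
  have hsize := upper_le (n := n) (S := small) hba ((card_filter_le _ _).trans hcard)
    fun d hd => (mem_filter.1 hd).2
  have hpos := upper_pos (n := n) hba (S := small) fun d hd =>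
    Nat.pos_of_mem_divisors (mem_filter.1 (mem_filter.1 hd).1).1
  have hexp : ∀ i, (e i).natAbs ≤ 2 ^ m := by
    have hbig : (n + T) * a ≤ 2 ^ m := add_mul_le_two_pow hnL
    refine Fin.lastCases ?_ fun j => ?_
    · simp only [e, Fin.snoc_last, Int.natAbs_neg, Int.natAbs_natCast]
      exact (Nat.totient_le n).trans (le_trans ((Nat.le_add_right n T).trans
        (Nat.le_mul_of_pos_right _ (by omega))) hbig)
    · simp only [e, Fin.snoc_castSucc, Int.natAbs_natCast]
      exact (exponent_le hba (by omega) hcard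
        (fun i => (candidates_bounds (C := C) (by omega) hq2 hqn i).1) hlogN j).trans hbig
  have hne := tail_ne_zero hab hb hba hn7 (filter_subset (¬ · ≤ U) _) hnlarge
  have hlow := logForm_ge (k := C + 2) (m := m) (fun i => (hg' i).1) (fun i => (hg' i).2) hpos.2
    hpos.1 (hsize.2.trans (Nat.pow_le_pow_right two_pos (by rw [hh, hTdef]; omega)))
    (hsize.1.trans (Nat.pow_le_pow_right two_pos (by rw [hh, hTdef]; omega))) hexp (by rwa [hform])
  rw [hform, show C + 2 + 1 = C + 3 from rfl, ← hκ] at hlow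
  have hup := abs_tail_le (n := n) hba ((card_filter_le _ _).trans hcard) hlarge
  set E := (2 ^ (4 * (C + 3) ^ 2 + 18) * (h + m)) ^ κ with hE
  refine absurd (hlow.trans hup) (not_le.2 (ratio_pow_lt hba ?_))
  have hwidth : h + m ≤ stewartWidth a t C * U := by
    rw [stewartWidth, hscale]
    exact width_le (by omega) hLU
  have hEle : E ≤ (2 ^ (4 * (C + 3) ^ 2 + 18) * stewartWidth a t C) ^ κ * U ^ κ := by
    rw [← mul_pow, mul_assoc]
    exact Nat.pow_le_pow_left (Nat.mul_le_mul_left _ hwidth) κ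
  calc a * (E + T + a + 1) ≤ M * U ^ κ := floor_le (Nat.one_le_pow _ _ (by omega)) hEle
    _ ≤ U ^ K := by
        rw [hK, pow_succ, mul_comm]
        exact Nat.mul_le_mul_left _ hMU.le
    _ ≤ V := hUV

end FA.StewartPrimes

end
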