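import Fermat.Agent.ReducedGroups.Zsigmondy
import Mathlib.NumberTheory.ArithmeticFunction.Moebius

/-!
# Logarithms of cyclotomic values and their primes

The logarithm of `b ^ φ(n) Φ n (a / b)` is `φ(n) log a + ∑ μ (n / d) log (1 - (b / a) ^ d)`, and
each of its primes has `a / b` of order `n` or is the largest prime of `n`.
-/

set_option autoImplicit false
set_option linter.unusedSectionVars false

noncomputable section

namespace FA.StewartPrimes

open Finset Polynomial ReducedGroups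

/-- The term of the expansion. -/
def ell (a b d : ℕ) : ℝ := Real.log (1 - ((b : ℝ) / a) ^ d)

/-- The divisors with squarefree codivisor. -/
def activeDivisors (n : ℕ) : Finset ℕ := n.divisors.filter fun d => Squarefree (n / d)

variable {a b : ℕ}

theorem one_sub_ratio_ge (hba : b < a) {d : ℕ} (hd : 0 < d) :
    1 / (a : ℝ) ≤ 1 - ((b : ℝ) / a) ^ d := by
  have ha : (0 : ℝ) < a := by exact_mod_cast Nat.zero_lt_of_lt hba
  have h1 : ((b : ℝ) / a) ^ d ≤ (b : ℝ) / a := pow_le_of_le_one (by positivity)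
    (div_le_one_of_le₀ (by exact_mod_cast hba.le) ha.le) hd.ne'
  have h2 : (b : ℝ) / a ≤ 1 - 1 / a := by
    rw [one_sub_div ha.ne', div_le_div_iff_of_pos_right ha, le_sub_iff_add_le]
    exact_mod_cast hba
  linarith

theorem log_sub_pow_eq (hba : b < a) {d : ℕ} (hd : 0 < d) :
    Real.log ((a : ℝ) ^ d - (b : ℝ) ^ d) = d * Real.log a + ell a b d := by
  have ha : (0 : ℝ) < a := by exact_mod_cast Nat.zero_lt_of_lt hba
  have h := one_sub_ratio_ge hba hd
  have h0 : 0 < 1 - ((b : ℝ) / a) ^ d := lt_of_lt_of_le (by positivity) h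
  rw [ell, ← Real.log_pow, ← Real.log_mul (by positivity) h0.ne', mul_sub, mul_one, div_pow,
    mul_div_cancel₀ _ (pow_ne_zero d ha.ne')]

theorem abs_ell_le (hba : b < a) {d : ℕ} (hd : 0 < d) :
    |ell a b d| ≤ a * ((b : ℝ) / a) ^ d ∧ |ell a b d| ≤ Real.log a := by
  have ha : (0 : ℝ) < a := by exact_mod_cast Nat.zero_lt_of_lt hba
  have hx : 0 ≤ ((b : ℝ) / a) ^ d := by positivity
  have h := one_sub_ratio_ge hba hd
  have h0 : 0 < 1 - ((b : ℝ) / a) ^ d := lt_of_lt_of_le (by positivity) h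
  have hnonpos : ell a b d ≤ 0 := Real.log_nonpos h0.le (by linarith)
  rw [abs_of_nonpos hnonpos]
  constructor
  · have h1 := Real.one_sub_inv_le_log_of_pos h0
    have h2 : (1 - ((b : ℝ) / a) ^ d)⁻¹ ≤ a := by
      rw [inv_le_comm₀ h0 ha]
      simpa using h
    rw [ell]
    nlinarith [mul_inv_cancel₀ h0.ne']
  · rw [ell, neg_le, ← Real.log_inv]
    exact Real.log_le_log (inv_pos.2 ha) (by simpa using h)

theorem sum_divisorsAntidiagonal_active {M : Type*} [AddCommMonoid M] (n : ℕ) (f : ℕ → ℕ → M)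
    (hf : ∀ x y, ¬ Squarefree x → f x y = 0) :
    ∑ x ∈ n.divisorsAntidiagonal, f x.1 x.2 = ∑ d ∈ activeDivisors n, f (n / d) d := by
  rw [Nat.sum_divisorsAntidiagonal' (f := f), activeDivisors, sum_filter_of_ne]
  exact fun d _ hd => by_contra fun h => hd (hf _ _ h)

theorem totient_eq_sum {n : ℕ} (hn : 0 < n) :
    (n.totient : ℝ) = ∑ d ∈ activeDivisors n,
      (ArithmeticFunction.moebius (n / d) : ℝ) * d := by
  rw [← (ArithmeticFunction.sum_eq_iff_sum_mul_moebius_eq (f := fun i => (i.totient : ℝ))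
    (g := fun i => (i : ℝ))).1 (fun m _ => by rw [← Nat.cast_sum, Nat.sum_totient]) n hn]
  exact sum_divisorsAntidiagonal_active n
    (fun x y => (ArithmeticFunction.moebius x : ℝ) * y) fun x y hx => by
      rw [ArithmeticFunction.moebius_eq_zero_of_not_squarefree hx, Int.cast_zero, zero_mul]

theorem homCyclotomic_ne_zero (hb : 0 < b) (hba : b < a) (n : ℕ) :
    homCyclotomic a b n ≠ 0 := by
  intro h0
  have e := cast_homCyclotomic (R := ℝ) (n := n) (a := a) (b := b) (r := (a : ℝ) / b)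
    (mul_div_cancel₀ _ (Nat.cast_ne_zero.2 hb.ne'))
  rw [h0, Int.cast_zero] at e
  have hr : 1 < (a : ℝ) / b := by
    rw [one_lt_div (by exact_mod_cast hb)]
    exact_mod_cast hba
  exact (mul_pos (pow_pos (by exact_mod_cast hb : (0 : ℝ) < b) _)
    (cyclotomic_pos_and_nonneg n _ |>.1 hr)).ne e

/-- **The expansion of the logarithm of a cyclotomic value.** -/
theorem log_natAbs_homCyclotomic (hb : 0 < b) (hba : b < a) {n : ℕ} (hn : 0 < n) :
    Real.log ((homCyclotomic a b n).natAbs : ℝ) = n.totient * Real.log a +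
      ∑ d ∈ activeDivisors n, (ArithmeticFunction.moebius (n / d) : ℝ) * ell a b d := by
  set f : ℕ → ℝ := fun i => Real.log (homCyclotomic a b i : ℝ)
  set g : ℕ → ℝ := fun i => Real.log ((a : ℝ) ^ i - (b : ℝ) ^ i)
  have hbR : (b : ℝ) ≠ 0 := Nat.cast_ne_zero.2 hb.ne'
  have key : ∀ m > 0, ∑ i ∈ m.divisors, f i = g m := fun m hm => by
    simp only [f, g]
    rw [← Real.log_prod fun i _ =>
      Int.cast_ne_zero.2 (homCyclotomic_ne_zero hb hba i)]
    congr 1
    rw [prod_congr rfl fun i _ => cast_homCyclotomic (R := ℝ) (r := (a : ℝ) / b)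
        (mul_div_cancel₀ _ hbR), prod_mul_distrib, prod_pow_eq_pow_sum, Nat.sum_totient,
      ← eval_prod, prod_cyclotomic_eq_X_pow_sub_one hm]
    simp only [eval_sub, eval_pow, eval_X, eval_one]
    rw [div_pow, mul_sub, mul_one, mul_div_cancel₀ _ (pow_ne_zero _ hbR)]
  have h := (ArithmeticFunction.sum_eq_iff_sum_mul_moebius_eq (f := f) (g := g)).1 key n hn
  rw [Nat.cast_natAbs, Int.cast_abs, Real.log_abs]
  rw [show Real.log (homCyclotomic a b n : ℝ) = f n from rfl, ← h,
    sum_divisorsAntidiagonal_active n (fun x y => (ArithmeticFunction.moebius x : ℝ) * g y)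
      fun x y hx => by
        rw [ArithmeticFunction.moebius_eq_zero_of_not_squarefree hx, Int.cast_zero, zero_mul],
    totient_eq_sum hn, sum_mul, ← sum_add_distrib]
  refine sum_congr rfl fun d hd => ?_
  simp only [g]
  rw [log_sub_pow_eq hba (Nat.pos_of_mem_divisors (mem_filter.1 hd).1)]
  ring

theorem card_activeDivisors_le {n t : ℕ} (hn : n ≠ 0) (ht : n.primeFactors.card ≤ t) :
    (activeDivisors n).card ≤ 2 ^ t := by
  refine le_trans ?_ (Nat.pow_le_pow_right two_pos ht)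
  rw [← card_powerset]
  refine card_le_card_of_injOn (fun d => (n / d).primeFactors) (fun d hd => ?_)
    fun d hd e he h => ?_
  · exact mem_powerset.2 (Nat.primeFactors_mono
      (Nat.div_dvd_of_dvd (Nat.dvd_of_mem_divisors (mem_filter.1 hd).1)) hn)
  · obtain ⟨h1, h2⟩ := mem_filter.1 hd
    obtain ⟨h3, h4⟩ := mem_filter.1 he
    rw [← Nat.div_div_self (Nat.dvd_of_mem_divisors h1) hn,
      ← Nat.div_div_self (Nat.dvd_of_mem_divisors h3) hn,
      ← Nat.prod_primeFactors_of_squarefree h2, ← Nat.prod_primeFactors_of_squarefree h4]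
    exact congrArg (fun s : Finset ℕ => n / ∏ p ∈ s, p) h

/-- The order at a prime decides the divisibility of `a ^ j - b ^ j`. -/
theorem dvd_sub_pow_iff {p n : ℕ} [Fact p.Prime] (hba : b ≤ a) (hn : 0 < n)
    (ho : orderOf ((a : ZMod p) * (b : ZMod p)⁻¹) = n) (j : ℕ) :
    p ∣ a ^ j - b ^ j ↔ n ∣ j := by
  have hb : (b : ZMod p) ≠ 0 := fun h => by
    rw [h, inv_zero, mul_zero, orderOf_zero] at ho
    omega
  rw [← ho, orderOf_dvd_iff_pow_eq_one, mul_pow, inv_pow, mul_inv_eq_one₀ (pow_ne_zero j hb),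
    ← ZMod.natCast_eq_zero_iff, Nat.cast_sub (Nat.pow_le_pow_left hba j), sub_eq_zero,
    Nat.cast_pow, Nat.cast_pow]

theorem not_dvd_left {p n : ℕ} [Fact p.Prime] (hn : 0 < n)
    (ho : orderOf ((a : ZMod p) * (b : ZMod p)⁻¹) = n) : ¬ p ∣ a := fun h => by
  rw [(ZMod.natCast_eq_zero_iff a p).2 h, zero_mul, orderOf_zero] at ho
  omega

/-- **The primes of a cyclotomic value** when those with order `n` are at most `C n`. -/
theorem primeFactors_cases {C n : ℕ} (hab : a.Coprime b) (hn : 1 < n)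
    (hsmall : ∀ p : ℕ, p.Prime → orderOf ((a : ZMod p) * (b : ZMod p)⁻¹) = n → p ≤ C * n)
    {p : ℕ} (hp : p ∈ (homCyclotomic a b n).natAbs.primeFactors) :
    (∃ j < C, p = (j + 1) * n + 1) ∨ (p ∣ n ∧ ∀ r : ℕ, r.Prime → r ∣ n → r ≤ p) := by
  obtain ⟨hpp, hdvd, -⟩ := Nat.mem_primeFactors.1 hp
  have := Fact.mk hpp
  obtain ⟨k, m, hnm, hm, ho, hm0, hlt⟩ := order_cases hab (by omega) (Int.natCast_dvd.2 hdvd)
  rcases k with _ | k
  · left
    rw [pow_zero, one_mul] at hnm
    rw [div_eq_mul_inv] at ho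
    subst hnm
    have hle := hsmall p hpp ho
    have hne : (a : ZMod p) * (b : ZMod p)⁻¹ ≠ 0 := fun h => by
      rw [h, orderOf_zero] at ho
      omega
    obtain ⟨j, hj⟩ : n ∣ p - 1 := ho ▸ ZMod.orderOf_dvd_card_sub_one hne
    have hp2 := hpp.two_le
    have hj1 : j ≠ 0 := fun h => by rw [h, mul_zero] at hj; omega
    obtain ⟨i, rfl⟩ : ∃ i, j = i + 1 := ⟨j - 1, by omega⟩
    rw [mul_comm] at hj
    refine ⟨i, Nat.lt_of_mul_lt_mul_right (a := n) ?_, by omega⟩
    have : (i + 1) * n = i * n + n := by ring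
    omega
  · right
    refine ⟨hnm ▸ (dvd_pow_self p k.succ_ne_zero).mul_right m, fun r hr hrn => ?_⟩
    rw [hnm] at hrn
    rcases hr.dvd_mul.1 hrn with h | h
    · exact ((Nat.prime_dvd_prime_iff_eq hr hpp).1 (hr.dvd_of_dvd_pow h)).le
    · exact (Nat.le_of_dvd hm0 h).trans hlt.le

end FA.StewartPrimes

end
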